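import Fermat.Agent.S56.Flat.Irr.Defs
import Fermat.Agent.S33.Val.Cyc

/-!
# S56 / FLAT / FD : definitions for KEY      (helper16; block owner helper17)     Briefing `S56-FLAT-2`, block FD.

* `OS p J : Subring Qb` : the integers of `Fx J`.
* `ADer p S d Dr` : `Dr : Qb → Qb` is an "approximate derivation" on the subring `S` of integral elements, modulo `{v ≥ d}`, killing the integers of `K0 = Fx (Ip p)`.
-/

set_option autoImplicit false

noncomputable section

namespace Fermat.Agent.S56.Flat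

open Fermat.Agent.S55 Fermat.Agent.S55.B Fermat.Agent.S05 ExtCitation

variable (p : ℕ) [Fact p.Prime]

/-- the integers of `Fx J` -/
def OS (J : Subgroup GQ) : Subring Qb := (Fx J).toSubfield.toSubring ⊓ (OO (vp p)).toSubring

theorem mem_OS {J : Subgroup GQ} {x : Qb} : x ∈ OS p J ↔ x ∈ Fx J ∧ (vp p).GE x 0 := Iff.rfl

/-- approximate derivation modulo `{v ≥ d}` -/
structure ADer (S : Subring Qb) (d : ℝ) (Dr : Qb → Qb) : Prop where
  int : ∀ x ∈ S, (vp p).GE x 0
  base : OS p (Ip p) ≤ S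
  add : ∀ x ∈ S, ∀ y ∈ S, Dr (x + y) = Dr x + Dr y
  leib : ∀ x ∈ S, ∀ y ∈ S, (vp p).GE (Dr (x * y) - (x * Dr y + y * Dr x)) d
  const : ∀ c ∈ OS p (Ip p), Dr c = 0
  dint : ∀ x ∈ S, (vp p).GE (Dr x) 0

end Fermat.Agent.S56.Flat
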