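import Fermat.Agent.S56.Flat.FL.Basic

/-!
# S56 / FLAT / FD7 : FACT A        (helper26; briefing `S56-FLAT-2`, block FD)

`C : Coord p V act`, `S` a subring of `Qb` containing the `p`-integral rationals, `Dr : Qb → Qb` an "approximate derivation" on `S` modulo `{v ≥ d}`.
If all `x_i (n g)` lie in `S` then `p * Dr (x_i g) ≡ 0`.

PROOF (matrix form of the invariant differential).  `X t = (x_b t)_b`, `M s` the translation matrix: `X (t + s) = M s * X t`; `M (s + s') = M s * M s'`, `M 0 = 1` (linear independence),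
`M s` is integral.  `D t = (Dr (x_b t))_b`.  Leibniz + comultiplication: `D (t₁ + t₂) ≡ M t₂ * D t₁ + M t₁ * D t₂`.  `τ t := M (-t) * D t` satisfies `τ (t₁ + t₂) ≡ τ t₁ + τ t₂`, `τ 0 ≡ 0`,
so `p τ g ≡ τ (p g) = τ 0 ≡ 0` and `p D g = M g * (p τ g) ≡ 0`.
-/

set_option autoImplicit false

noncomputable section

namespace Fermat.Agent.S56.Flat

open Fermat.Agent.S55 Fermat.Agent.S55.B Fermat.Agent.S05 ExtCitation

variable {p : ℕ} [Fact p.Prime] {V : Type} [AddCommGroup V] {act : GQ →* AddMonoid.End V}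

namespace FDA

variable (C : Coord p V act)

/-- the translation matrix -/
def M (s : V) : Matrix (Fin C.n) (Fin C.n) Qb := fun b c => ∑ k, C.δ b c k * C.x k s

theorem coef_ext {A B : Fin C.n → Qb} (h : ∀ t, ∑ c, A c * C.x c t = ∑ c, B c * C.x c t) : A = B := by
  have h1 := Fintype.linearIndependent_iff.1 C.li (fun c => A c - B c) (by
    funext t
    simp only [Finset.sum_apply, Pi.smul_apply, smul_eq_mul, Pi.zero_apply, sub_mul,
      Finset.sum_sub_distrib, h t, sub_self])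
  funext c
  exact sub_eq_zero.1 (h1 c)

theorem x_add (s t : V) (b : Fin C.n) : C.x b (t + s) = ∑ c, M C s b c * C.x c t := by
  rw [C.add]
  refine Finset.sum_congr rfl fun j _ => ?_
  rw [M, Finset.sum_mul]
  refine Finset.sum_congr rfl fun k _ => ?_
  ring

theorem M_add (s s' : V) : M C (s + s') = M C s * M C s' := by
  funext b
  refine coef_ext C fun t => ?_
  rw [← x_add, ← add_assoc, add_right_comm, x_add]
  simp only [x_add C s' t, Matrix.mul_apply, Finset.mul_sum, Finset.sum_mul]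
  rw [Finset.sum_comm]
  refine Finset.sum_congr rfl fun c _ => Finset.sum_congr rfl fun c' _ => ?_
  ring

theorem M_zero : M C 0 = 1 := by
  funext b
  refine coef_ext C fun t => ?_
  rw [← x_add, add_zero]
  simp [Matrix.one_apply]

theorem M_left (s : V) (b d : Fin C.n) : ∑ j, C.δ b j d * C.x j s = M C s b d := by
  have := coef_ext C (A := fun d => ∑ j, C.δ b j d * C.x j s) (B := M C s b) fun t => by
    rw [← x_add, add_comm, C.add, Finset.sum_comm]
    refine Finset.sum_congr rfl fun k _ => ?_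
    rw [Finset.sum_mul]
    refine Finset.sum_congr rfl fun j _ => ?_
    ring
  exact congrFun this d

theorem M_int (s : V) (b c : Fin C.n) : (vp p).GE (M C s b c) 0 :=
  GE_sum _ _ _ _ fun k _ => by simpa using (C.δ_int b c k).GE.mul (C.x_int k s)

variable (p) in
/-- congruence of vectors modulo `{v ≥ d}` -/
def Cg {n : ℕ} (d : ℝ) (a b : Fin n → Qb) : Prop := ∀ i, (vp p).GE (a i - b i) d

theorem Cg.rfl' {n : ℕ} {d : ℝ} (a : Fin n → Qb) : Cg p d a a := fun i => by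
  rw [sub_self]; exact RVal.GE_zero d

theorem Cg.of_eq {n : ℕ} {d : ℝ} {a b : Fin n → Qb} (h : a = b) : Cg p d a b := h ▸ Cg.rfl' a

theorem Cg.symm {n : ℕ} {d : ℝ} {a b : Fin n → Qb} (h : Cg p d a b) : Cg p d b a := fun i => by
  have := (h i).neg
  rwa [neg_sub] at this

theorem Cg.trans {n : ℕ} {d : ℝ} {a b c : Fin n → Qb} (h : Cg p d a b) (h' : Cg p d b c) :
    Cg p d a c := fun i => by
  have := (h i).add (h' i)
  rwa [sub_add_sub_cancel] at this

theorem Cg.add {n : ℕ} {d : ℝ} {a b a' b' : Fin n → Qb} (h : Cg p d a b) (h' : Cg p d a' b') :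
    Cg p d (a + a') (b + b') := fun i => by
  have := (h i).add (h' i)
  rwa [← add_sub_add_comm] at this

theorem Cg.mulVec {n : ℕ} {d : ℝ} {a b : Fin n → Qb} (h : Cg p d a b) {N : Matrix (Fin n) (Fin n) Qb}
    (hN : ∀ i j, (vp p).GE (N i j) 0) : Cg p d (N.mulVec a) (N.mulVec b) := fun i => by
  have e : N.mulVec a i - N.mulVec b i = ∑ j, N i j * (a j - b j) := by
    simp only [Matrix.mulVec, dotProduct, mul_sub, Finset.sum_sub_distrib]
  rw [e]
  exact GE_sum _ _ _ _ fun j _ => by simpa using (hN i j).mul (h j)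

section Der

variable {S : Subring Qb} {Dr : Qb → Qb} {d : ℝ}

theorem rInt_zero : RInt p 0 := ⟨0, zero_mem _, map_zero _⟩

theorem Dr_sum (hadd : ∀ x ∈ S, ∀ y ∈ S, (vp p).GE (Dr (x + y) - (Dr x + Dr y)) d)
    (hconst : ∀ c, RInt p c → (vp p).GE (Dr c) d) {ι : Type*} (s : Finset ι) (f : ι → Qb)
    (hf : ∀ i ∈ s, f i ∈ S) : (vp p).GE (Dr (∑ i ∈ s, f i) - ∑ i ∈ s, Dr (f i)) d := by
  classical
  induction s using Finset.induction_on with
  | empty => simpa using hconst 0 rInt_zero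
  | insert a s ha ih =>
    rw [Finset.sum_insert ha, Finset.sum_insert ha]
    have h1 := hadd (f a) (hf a (Finset.mem_insert_self a s)) (∑ i ∈ s, f i)
      (Subring.sum_mem S fun i hi => hf i (Finset.mem_insert_of_mem hi))
    have h2 := ih fun i hi => hf i (Finset.mem_insert_of_mem hi)
    have e : Dr (f a + ∑ i ∈ s, f i) - (Dr (f a) + ∑ i ∈ s, Dr (f i)) =
        (Dr (f a + ∑ i ∈ s, f i) - (Dr (f a) + Dr (∑ i ∈ s, f i))) +
          (Dr (∑ i ∈ s, f i) - ∑ i ∈ s, Dr (f i)) := by ring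
    rw [e]
    exact h1.add h2

/-- Leibniz + comultiplication -/
theorem leib_add (hSR : ∀ c, RInt p c → c ∈ S)
    (hadd : ∀ x ∈ S, ∀ y ∈ S, (vp p).GE (Dr (x + y) - (Dr x + Dr y)) d)
    (hsmul : ∀ c, RInt p c → ∀ x ∈ S, (vp p).GE (Dr (c * x) - c * Dr x) d)
    (hconst : ∀ c, RInt p c → (vp p).GE (Dr c) d)
    (hleib : ∀ x ∈ S, ∀ y ∈ S, (vp p).GE (Dr (x * y) - (x * Dr y + y * Dr x)) d) {t1 t2 : V}
    (h1 : ∀ i, C.x i t1 ∈ S) (h2 : ∀ i, C.x i t2 ∈ S) :
    Cg p d (fun b => Dr (C.x b (t1 + t2)))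
      ((M C t2).mulVec (fun b => Dr (C.x b t1)) + (M C t1).mulVec (fun b => Dr (C.x b t2))) := by
  intro b
  have e1 : C.x b (t1 + t2) =
      ∑ jk : Fin C.n × Fin C.n, C.δ b jk.1 jk.2 * (C.x jk.1 t1 * C.x jk.2 t2) := by
    rw [C.add, Fintype.sum_prod_type]
  have e2 : ((M C t2).mulVec (fun b => Dr (C.x b t1)) + (M C t1).mulVec (fun b => Dr (C.x b t2))) b =
      ∑ jk : Fin C.n × Fin C.n, C.δ b jk.1 jk.2 *
        (C.x jk.1 t1 * Dr (C.x jk.2 t2) + C.x jk.2 t2 * Dr (C.x jk.1 t1)) := by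
    rw [Fintype.sum_prod_type]
    simp only [mul_add, Finset.sum_add_distrib, Pi.add_apply, Matrix.mulVec, dotProduct]
    rw [add_comm]
    congr 1
    · rw [Finset.sum_comm]
      refine Finset.sum_congr rfl fun k _ => ?_
      rw [← M_left, Finset.sum_mul]
      refine Finset.sum_congr rfl fun j _ => ?_
      ring
    · refine Finset.sum_congr rfl fun j _ => ?_
      rw [M, Finset.sum_mul]
      refine Finset.sum_congr rfl fun k _ => ?_
      ring
  show (vp p).GE (Dr (C.x b (t1 + t2)) - _) d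
  rw [e2, e1]
  have hmem : ∀ jk : Fin C.n × Fin C.n, C.x jk.1 t1 * C.x jk.2 t2 ∈ S := fun jk =>
    S.mul_mem (h1 _) (h2 _)
  have a1 := Dr_sum hadd hconst Finset.univ
    (fun jk : Fin C.n × Fin C.n => C.δ b jk.1 jk.2 * (C.x jk.1 t1 * C.x jk.2 t2))
    (fun jk _ => S.mul_mem (hSR _ (C.δ_int _ _ _)) (hmem jk))
  have a2 : (vp p).GE (∑ jk : Fin C.n × Fin C.n, (Dr (C.δ b jk.1 jk.2 * (C.x jk.1 t1 * C.x jk.2 t2)) -
      C.δ b jk.1 jk.2 * (C.x jk.1 t1 * Dr (C.x jk.2 t2) + C.x jk.2 t2 * Dr (C.x jk.1 t1)))) d := by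
    refine GE_sum _ _ _ _ fun jk _ => ?_
    have b1 := hsmul _ (C.δ_int b jk.1 jk.2) _ (hmem jk)
    have b2 := (C.δ_int b jk.1 jk.2).GE.mul (hleib _ (h1 jk.1) _ (h2 jk.2))
    rw [zero_add] at b2
    have := b1.add b2
    have e : Dr (C.δ b jk.1 jk.2 * (C.x jk.1 t1 * C.x jk.2 t2)) -
        C.δ b jk.1 jk.2 * (C.x jk.1 t1 * Dr (C.x jk.2 t2) + C.x jk.2 t2 * Dr (C.x jk.1 t1)) =
        (Dr (C.δ b jk.1 jk.2 * (C.x jk.1 t1 * C.x jk.2 t2)) -
          C.δ b jk.1 jk.2 * Dr (C.x jk.1 t1 * C.x jk.2 t2)) +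
        C.δ b jk.1 jk.2 * (Dr (C.x jk.1 t1 * C.x jk.2 t2) -
          (C.x jk.1 t1 * Dr (C.x jk.2 t2) + C.x jk.2 t2 * Dr (C.x jk.1 t1))) := by ring
    rw [e]
    exact this
  rw [Finset.sum_sub_distrib] at a2
  have := a1.add a2
  rwa [sub_add_sub_cancel] at this

end Der

end FDA

open FDA in
/-- **FACT A** (FD7) -/
theorem factA (C : Coord p V act) (hpV : ∀ t : V, p • t = 0) (S : Subring Qb)
    (hSR : ∀ c, RInt p c → c ∈ S) (Dr : Qb → Qb) (d : ℝ)
    (hadd : ∀ x ∈ S, ∀ y ∈ S, (vp p).GE (Dr (x + y) - (Dr x + Dr y)) d)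
    (hsmul : ∀ c, RInt p c → ∀ x ∈ S, (vp p).GE (Dr (c * x) - c * Dr x) d)
    (hconst : ∀ c, RInt p c → (vp p).GE (Dr c) d)
    (hleib : ∀ x ∈ S, ∀ y ∈ S, (vp p).GE (Dr (x * y) - (x * Dr y + y * Dr x)) d) (g : V)
    (hg : ∀ (n : ℕ) i, C.x i (n • g) ∈ S) (i : Fin C.n) :
    (vp p).GE ((p : Qb) * Dr (C.x i g)) d := by
  set D : V → Fin C.n → Qb := fun t b => Dr (C.x b t) with hD
  set τ : V → Fin C.n → Qb := fun t => (M C (-t)).mulVec (D t) with hτ
  have hg1 : ∀ i, C.x i g ∈ S := fun i => by simpa using hg 1 i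
  have hstep : ∀ n : ℕ, Cg p d (τ ((n + 1) • g)) (τ (n • g) + τ g) := by
    intro n
    have h1 := (leib_add C hSR hadd hsmul hconst hleib (hg n) hg1).mulVec (M_int C (-(n • g + g)))
    rw [Matrix.mulVec_add, Matrix.mulVec_mulVec, Matrix.mulVec_mulVec, ← M_add, ← M_add] at h1
    have e1 : -(n • g + g) + g = -(n • g) := by abel
    have e2 : -(n • g + g) + n • g = -g := by abel
    rw [e1, e2] at h1
    rw [succ_nsmul]
    exact h1
  have hzero : Cg p d (τ 0) 0 := by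
    have h0 : Cg p d (D 0) 0 := fun b => by
      rw [Pi.zero_apply, sub_zero]
      exact hconst _ (C.zero b)
    have := h0.mulVec (M_int C (-0))
    rwa [Matrix.mulVec_zero] at this
  have hn : ∀ n : ℕ, Cg p d (τ (n • g)) ((n : Qb) • τ g) := by
    intro n
    induction n with
    | zero =>
      rw [zero_nsmul, Nat.cast_zero, zero_smul]
      exact hzero
    | succ n ih =>
      refine (hstep n).trans ?_
      have := ih.add (Cg.rfl' (p := p) (d := d) (τ g))
      have e : ((n + 1 : ℕ) : Qb) • τ g = (n : Qb) • τ g + τ g := by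
        rw [Nat.cast_succ, add_smul, one_smul]
      rw [e]
      exact this
  have hp0 : Cg p d ((p : Qb) • τ g) 0 := by
    have := hn p
    rw [hpV] at this
    exact this.symm.trans hzero
  have hDg : D g = (M C g).mulVec (τ g) := by
    rw [hτ]
    simp only
    rw [Matrix.mulVec_mulVec, ← M_add, add_neg_cancel, M_zero, Matrix.one_mulVec]
  have h2 := hp0.mulVec (M_int C g) i
  rw [Matrix.mulVec_zero, Matrix.mulVec_smul, ← hDg, Pi.zero_apply, sub_zero] at h2
  exact h2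

end Fermat.Agent.S56.Flat
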