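import Fermat.Agent.S56.Flat.Irr.Defs
import Fermat.Agent.S56.Flat.FL.Lat2
import Fermat.Agent.S56.FD.Key

/-!
# S56 / FLAT / FD : KEY in the shape used by `Flat/FI/Main.lean`      (helper16)

`key` = helper24's `Coord.tr'` (the unit `w = ∑ x_j(g) a_j`, `a_j ∈ O_F`, with `σ w = ζ^(ℓ(σ g - g)) w` on `I_F`) + helper17's `FD.key` (`w^p ≡ t^p mod p`).
-/

set_option autoImplicit false

noncomputable section

namespace Fermat.Agent.S56.Flat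

open Fermat.Agent.S55 Fermat.Agent.S55.B Fermat.Agent.S05 ExtCitation

variable {p : ℕ} [Fact p.Prime] {V : Type} [AddCommGroup V] {act : GQ →* AddMonoid.End V}

/-- **KEY** : the Kummer characters `σ ↦ ℓ (σ g - g)` on `I_F` come from units `≡ 1 mod p` of `F` -/
theorem key (hp2 : p ≠ 2) [Finite V] (C : Coord p V act) (hpV : ∀ t : V, p • t = 0) {π : Qb}
    (hπ : π ^ (p ^ 2 - 1) = -(p : Qb)) (V1 : AddSubgroup V)
    (hV1 : ∀ σ ∈ IF p π, ∀ t ∈ V1, act σ t = t) (g : V) (hg : ∀ σ ∈ IF p π, act σ g - g ∈ V1)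
    (ℓ : V →+ ZMod p) :
    ∃ w : Qb, w ≠ 0 ∧ (∀ σ ∈ IF p π, σ w = C.ζ ^ (ℓ (act σ g - g)).val * w) ∧
      (vp p).GE (w ^ p - 1) 1 := by
  have hT : FK.TD (pPrime p) π C.ζ := ⟨hπ, C.hζ, hp2⟩
  have hcyc : ∀ σ ∈ IF p π, cycloChar p σ = 1 := by
    intro σ hσ
    refine E.cycloChar_eq_one p σ fun t ht => ?_
    obtain ⟨i, -, rfl⟩ := C.hζ.eq_pow_of_pow_eq_one ht
    rw [map_pow, FK.zeta_fixed hT hσ]
  obtain ⟨a, ha, hw, hκ⟩ := C.tr' (IF p π) V1 hV1 hcyc g hg ℓ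
  obtain ⟨w, ⟨hw0, hw1⟩, hw2⟩ := FD.key (p := pPrime p) C hpV hT g a
    (fun j => ⟨fun σ hσ => mem_Fx.1 (ha j).1 σ hσ, (ha j).2⟩) hw
    (fun σ => ℓ (act σ g - g)) hκ
  exact ⟨w, hw0, hw1, hw2⟩

end Fermat.Agent.S56.Flat
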